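import Mathlib

/-!
# Orders of eigen-germs under a finite-order local symmetry

`sig` is an analytic germ fixing `z0` with `deriv sig z0 = ζ` (a primitive `e`-th root of unity),
`u` is analytic with `u z0 = ζ ^ s`.  If an analytic germ `g` satisfies
`g (sig z) = ζ ^ l * u z * g z` near `z0`, then its order at `z0` is `≡ l + s [MOD e]`
(compare leading coefficients).
-/

set_option autoImplicit false

open Filter Topology

namespace Fermat.Agent.S20_helper48

/-- The eigen-relation of weight `l` for the local symmetry `(sig, u)`. -/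
def IsEigenGerm (ζ : ℂ) (sig u : ℂ → ℂ) (z0 : ℂ) (l : ℕ) (g : ℂ → ℂ) : Prop :=
  AnalyticAt ℂ g z0 ∧ ∀ᶠ z in 𝓝 z0, g (sig z) = ζ ^ l * u z * g z

section

variable {ζ : ℂ} {e s : ℕ} {sig u : ℂ → ℂ} {z0 : ℂ}

/-- `sig z - z0 = (z - z0) * k z` near `z0` with `k` analytic and `k z0 = deriv sig z0`. -/
theorem exists_slope_factor (hsig : AnalyticAt ℂ sig z0) (hsig0 : sig z0 = z0) :
    ∃ k : ℂ → ℂ, AnalyticAt ℂ k z0 ∧ k z0 = deriv sig z0 ∧
      ∀ᶠ z in 𝓝 z0, sig z - z0 = (z - z0) * k z := by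
  have hf : AnalyticAt ℂ (fun z => sig z - z0) z0 := hsig.sub analyticAt_const
  have h1 : ((1 : ℕ) : ℕ∞) ≤ analyticOrderAt (fun z => sig z - z0) z0 := by
    have hne : analyticOrderAt (fun z => sig z - z0) z0 ≠ 0 := by
      rw [hf.analyticOrderAt_ne_zero]; simp [hsig0]
    exact Order.one_le_iff_ne_zero.mpr hne
  obtain ⟨k, hk, hkz⟩ := (natCast_le_analyticOrderAt hf).mp h1
  refine ⟨k, hk, ?_, ?_⟩
  · -- derivative of `(z - z0) * k z` at `z0` is `k z0`
    have hd1 : HasDerivAt (fun z => sig z - z0) (deriv sig z0) z0 := by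
      simpa using (hsig.differentiableAt.hasDerivAt).sub_const z0
    have hd2 : HasDerivAt (fun z => (z - z0) ^ 1 • k z) (k z0) z0 := by
      have h : HasDerivAt (fun z => (z - z0) * k z) (1 * k z0 + (z0 - z0) * deriv k z0) z0 :=
        ((hasDerivAt_id' z0).sub_const z0).fun_mul hk.differentiableAt.hasDerivAt
      simpa using h
    have hd3 : HasDerivAt (fun z => sig z - z0) (k z0) z0 :=
      hd2.congr_of_eventuallyEq hkz
    exact (hd3.unique hd1)
  · filter_upwards [hkz] with z hz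
    simpa using hz

/-- **Leading-coefficient comparison.** An eigen-germ of weight `l` with finite order `n`
has `n ≡ l + s [MOD e]`. -/
theorem IsEigenGerm.order_modEq (he : e ≠ 0) (hζ : IsPrimitiveRoot ζ e)
    (hsig : AnalyticAt ℂ sig z0) (hsig0 : sig z0 = z0) (hsig1 : deriv sig z0 = ζ)
    (hu : AnalyticAt ℂ u z0) (hu0 : u z0 = ζ ^ s) {l : ℕ} {g : ℂ → ℂ}
    (hg : IsEigenGerm ζ sig u z0 l g) {n : ℕ} (hn : analyticOrderAt g z0 = n) :
    n ≡ l + s [MOD e] := by
  obtain ⟨hga, hgrel⟩ := hg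
  obtain ⟨h, hh, hh0, hgh⟩ := (hga.analyticOrderAt_eq_natCast).mp hn
  obtain ⟨k, hk, hk0, hsk⟩ := exists_slope_factor hsig hsig0
  -- `sig z → z0`
  have hsigt : Tendsto sig (𝓝 z0) (𝓝 z0) := by
    have := hsig.continuousAt.tendsto
    rwa [hsig0] at this
  have hgh' : ∀ᶠ z in 𝓝 z0, g (sig z) = (sig z - z0) ^ n • h (sig z) := hsigt.eventually hgh
  -- the identity away from `z0`
  have key : ∀ᶠ z in 𝓝[≠] z0, k z ^ n * h (sig z) = ζ ^ l * u z * h z := by
    filter_upwards [self_mem_nhdsWithin, hgrel.filter_mono nhdsWithin_le_nhds,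
      hgh.filter_mono nhdsWithin_le_nhds, hgh'.filter_mono nhdsWithin_le_nhds,
      hsk.filter_mono nhdsWithin_le_nhds] with z hz h1 h2 h3 h4
    have hz' : z - z0 ≠ 0 := sub_ne_zero_of_ne hz
    have hpow : (z - z0) ^ n ≠ 0 := pow_ne_zero _ hz'
    rw [h3, h2, h4] at h1
    simp only [smul_eq_mul] at h1
    have : (z - z0) ^ n * (k z ^ n * h (sig z)) = (z - z0) ^ n * (ζ ^ l * u z * h z) := by
      rw [mul_pow] at h1
      linear_combination h1
    exact mul_left_cancel₀ hpow this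
  -- pass to the limit
  have hL : ContinuousAt (fun z => k z ^ n * h (sig z)) z0 := by
    have h1 : ContinuousAt (fun z => h (sig z)) z0 := by
      have : ContinuousAt h (sig z0) := by rw [hsig0]; exact hh.continuousAt
      exact ContinuousAt.comp (f := sig) (g := h) this hsig.continuousAt
    exact (hk.continuousAt.pow n).mul h1
  have hR : ContinuousAt (fun z => ζ ^ l * u z * h z) z0 :=
    (continuousAt_const.mul hu.continuousAt).mul hh.continuousAt
  have heq : k z0 ^ n * h (sig z0) = ζ ^ l * u z0 * h z0 :=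
    tendsto_nhds_unique_of_eventuallyEq (l := 𝓝[≠] z0)
      hL.continuousWithinAt hR.continuousWithinAt key
  rw [hsig0, hk0, hsig1, hu0] at heq
  have heq' : ζ ^ n = ζ ^ (l + s) := by
    rw [pow_add]
    exact mul_right_cancel₀ hh0 heq
  have := ((hζ.isOfFinOrder he).pow_eq_pow_iff_modEq).mp heq'
  rwa [← hζ.eq_orderOf] at this

/-- An eigen-germ of weight `l` vanishes at `z0` to order at least `(l + s) % e`. -/
theorem IsEigenGerm.le_order (he : e ≠ 0) (hζ : IsPrimitiveRoot ζ e)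
    (hsig : AnalyticAt ℂ sig z0) (hsig0 : sig z0 = z0) (hsig1 : deriv sig z0 = ζ)
    (hu : AnalyticAt ℂ u z0) (hu0 : u z0 = ζ ^ s) {l : ℕ} {g : ℂ → ℂ}
    (hg : IsEigenGerm ζ sig u z0 l g) :
    (((l + s) % e : ℕ) : ℕ∞) ≤ analyticOrderAt g z0 := by
  rcases eq_or_ne (analyticOrderAt g z0) ⊤ with htop | hne
  · rw [htop]; exact le_top
  · obtain ⟨n, hn⟩ := ENat.ne_top_iff_exists.mp hne
    have hmod := hg.order_modEq he hζ hsig hsig0 hsig1 hu hu0 hn.symm
    rw [← hn]
    have : (l + s) % e ≤ n := by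
      have h1 : n % e = (l + s) % e := hmod
      rw [← h1]; exact Nat.mod_le n e
    exact_mod_cast this

/-- An eigen-germ of weight `l` whose order exceeds `(l + s) % e` has order at least
`(l + s) % e + e`. -/
theorem IsEigenGerm.add_le_order (he : e ≠ 0) (hζ : IsPrimitiveRoot ζ e)
    (hsig : AnalyticAt ℂ sig z0) (hsig0 : sig z0 = z0) (hsig1 : deriv sig z0 = ζ)
    (hu : AnalyticAt ℂ u z0) (hu0 : u z0 = ζ ^ s) {l : ℕ} {g : ℂ → ℂ}
    (hg : IsEigenGerm ζ sig u z0 l g)
    (hlt : (((l + s) % e + 1 : ℕ) : ℕ∞) ≤ analyticOrderAt g z0) :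
    (((l + s) % e + e : ℕ) : ℕ∞) ≤ analyticOrderAt g z0 := by
  rcases eq_or_ne (analyticOrderAt g z0) ⊤ with htop | hne
  · rw [htop]; exact le_top
  · obtain ⟨n, hn⟩ := ENat.ne_top_iff_exists.mp hne
    have hmod := hg.order_modEq he hζ hsig hsig0 hsig1 hu hu0 hn.symm
    rw [← hn] at hlt ⊢
    have hlt' : (l + s) % e + 1 ≤ n := by exact_mod_cast hlt
    have h1 : n % e = (l + s) % e := hmod
    have h2 : (l + s) % e + e ≤ n := by
      by_contra hcon
      rw [not_le] at hcon
      have h3 : n - (l + s) % e < e := by omega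
      have h4 : (n - (l + s) % e) % e = 0 := by
        have : n = (n - (l + s) % e) + (l + s) % e := by omega
        have h5 : (n - (l + s) % e) ≡ 0 [MOD e] := by
          have h6 : (n - (l + s) % e) + (l + s) % e ≡ 0 + (l + s) % e [MOD e] := by
            rw [← this, zero_add]
            show n % e = ((l + s) % e) % e
            rw [h1, Nat.mod_mod]
          exact Nat.ModEq.add_right_cancel' _ h6
        exact h5
      rw [Nat.mod_eq_of_lt h3] at h4
      omega
    exact_mod_cast h2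

/-- In particular such a germ vanishes to order at least `e`. -/
theorem IsEigenGerm.e_le_order (he : e ≠ 0) (hζ : IsPrimitiveRoot ζ e)
    (hsig : AnalyticAt ℂ sig z0) (hsig0 : sig z0 = z0) (hsig1 : deriv sig z0 = ζ)
    (hu : AnalyticAt ℂ u z0) (hu0 : u z0 = ζ ^ s) {l : ℕ} {g : ℂ → ℂ}
    (hg : IsEigenGerm ζ sig u z0 l g)
    (hlt : (((l + s) % e + 1 : ℕ) : ℕ∞) ≤ analyticOrderAt g z0) :
    ((e : ℕ) : ℕ∞) ≤ analyticOrderAt g z0 := by
  refine le_trans ?_ (hg.add_le_order he hζ hsig hsig0 hsig1 hu hu0 hlt)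
  exact_mod_cast Nat.le_add_left e ((l + s) % e)

theorem IsEigenGerm.const_mul {l : ℕ} {g : ℂ → ℂ} (hg : IsEigenGerm ζ sig u z0 l g) (c : ℂ) :
    IsEigenGerm ζ sig u z0 l (fun z => c * g z) := by
  refine ⟨analyticAt_const.mul hg.1, ?_⟩
  filter_upwards [hg.2] with z hz
  rw [hz]; ring

theorem IsEigenGerm.add {l : ℕ} {g h : ℂ → ℂ} (hg : IsEigenGerm ζ sig u z0 l g)
    (hh : IsEigenGerm ζ sig u z0 l h) : IsEigenGerm ζ sig u z0 l (fun z => g z + h z) := by
  refine ⟨hg.1.add hh.1, ?_⟩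
  filter_upwards [hg.2, hh.2] with z hz1 hz2
  rw [hz1, hz2]; ring

theorem IsEigenGerm.zero {l : ℕ} : IsEigenGerm ζ sig u z0 l (fun _ => 0) :=
  ⟨analyticAt_const, by simp⟩

theorem IsEigenGerm.sum {ι : Type*} (t : Finset ι) {l : ℕ} {g : ι → ℂ → ℂ}
    (hg : ∀ i ∈ t, IsEigenGerm ζ sig u z0 l (g i)) :
    IsEigenGerm ζ sig u z0 l (fun z => ∑ i ∈ t, g i z) := by
  classical
  induction t using Finset.induction_on with
  | empty => simpa using IsEigenGerm.zero
  | insert a t ha ih =>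
    have h1 := hg a (Finset.mem_insert_self a t)
    have h2 := ih (fun i hi => hg i (Finset.mem_insert_of_mem hi))
    have := h1.add h2
    refine ⟨?_, ?_⟩
    · convert this.1 using 1
      ext z; rw [Finset.sum_insert ha]
    · filter_upwards [this.2] with z hz
      rw [Finset.sum_insert ha, Finset.sum_insert ha]; exact hz

end

end Fermat.Agent.S20_helper48
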