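import Mathlib
import Fermat.Agent.S20_helper48.EigenOrder

set_option autoImplicit false

open Filter Topology Matrix

namespace Fermat.Agent.S20_helper48

/-! ### Elementary sums -/

theorem sum_range_shift {M : Type*} [AddCancelCommMonoid M] (g : ℕ → M) (e : ℕ)
    (h : g e = g 0) :
    ∑ b ∈ Finset.range e, g (b + 1) = ∑ b ∈ Finset.range e, g b := by
  have h1 := Finset.sum_range_succ' g e
  have h2 := Finset.sum_range_succ g e
  rw [h1, h] at h2
  exact add_right_cancel h2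

theorem sum_range_add_mod (e s : ℕ) :
    ∑ l ∈ Finset.range e, (l + s) % e = e * (e - 1) / 2 := by
  induction s with
  | zero =>
    rw [← Finset.sum_range_id]
    apply Finset.sum_congr rfl
    intro l hl
    simp [Nat.mod_eq_of_lt (Finset.mem_range.mp hl)]
  | succ s ih =>
    rw [← ih]
    have := sum_range_shift (fun n => (n + s) % e) e (by simp)
    rw [← this]
    apply Finset.sum_congr rfl
    intro l _
    show (l + (s + 1)) % e = (l + 1 + s) % e
    congr 1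
    ring

/-! ### The DFT matrix and the block change of basis -/

/-- The DFT matrix `(η ^ l) ^ b`. -/
def dft (η : ℂ) (e : ℕ) : Matrix (Fin e) (Fin e) ℂ :=
  Matrix.of fun b l => (η ^ (l : ℕ)) ^ (b : ℕ)

theorem det_dft_ne_zero {η : ℂ} {e : ℕ} (hη : IsPrimitiveRoot η e) : (dft η e).det ≠ 0 := by
  have h : dft η e = (Matrix.vandermonde fun l : Fin e => η ^ (l : ℕ))ᵀ := by
    ext b l
    simp [dft, Matrix.vandermonde_apply]
  rw [h, Matrix.det_transpose, Matrix.det_vandermonde_ne_zero_iff]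
  intro l l' hll
  exact Fin.ext (hη.pow_inj l.2 l'.2 hll)

section BMat

variable (η : ℂ) (e : ℕ) (F R : Type*) [Fintype F] [DecidableEq F] [Fintype R] [DecidableEq R]

/-- Block change of basis: identity on the fixed points, DFT on each free orbit. -/
def bMat : Matrix (F ⊕ (Fin e × R)) (F ⊕ (Fin e × R)) ℂ :=
  Matrix.fromBlocks 1 0 0 (Matrix.blockDiagonal fun _ : R => dft η e)

variable {η e}

theorem det_bMat_ne_zero (hη : IsPrimitiveRoot η e) : (bMat η e F R).det ≠ 0 := by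
  unfold bMat
  rw [Matrix.det_fromBlocks_zero₂₁, Matrix.det_one, one_mul, Matrix.det_blockDiagonal]
  exact Finset.prod_ne_zero_iff.mpr fun _ _ => det_dft_ne_zero hη

variable {F R}

theorem mul_bMat_inl {J : Type*} (A : Matrix J (F ⊕ (Fin e × R)) ℂ) (j : J) (x : F) :
    (A * bMat η e F R) j (Sum.inl x) = A j (Sum.inl x) := by
  rw [Matrix.mul_apply, Fintype.sum_sum_type]
  simp [bMat, Matrix.one_apply]

theorem mul_bMat_inr {J : Type*} (A : Matrix J (F ⊕ (Fin e × R)) ℂ) (j : J) (l : Fin e) (ω : R) :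
    (A * bMat η e F R) j (Sum.inr (l, ω)) =
      ∑ b : Fin e, A j (Sum.inr (b, ω)) * (η ^ (l : ℕ)) ^ (b : ℕ) := by
  rw [Matrix.mul_apply, Fintype.sum_sum_type]
  simp only [bMat, Matrix.fromBlocks_apply₁₂, Matrix.fromBlocks_apply₂₂, Matrix.zero_apply,
    mul_zero, Finset.sum_const_zero, zero_add]
  rw [Fintype.sum_prod_type]
  simp only [Matrix.blockDiagonal_apply, dft, Matrix.of_apply]
  apply Finset.sum_congr rfl
  intro b _
  simp

end BMat


/-! ### Analytic helpers -/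

theorem analyticAt_det_of {n : Type*} [Fintype n] [DecidableEq n] {z0 : ℂ} {G : n → n → ℂ → ℂ}
    (h : ∀ i j, AnalyticAt ℂ (G i j) z0) :
    AnalyticAt ℂ (fun z => Matrix.det (Matrix.of fun i j => G i j z)) z0 := by
  simp only [Matrix.det_apply', Matrix.of_apply]
  refine Finset.analyticAt_fun_sum _ fun σ _ => ?_
  have h1 : AnalyticAt ℂ (fun z => ∏ i, G (σ i) i z) z0 :=
    Finset.analyticAt_fun_prod _ fun i _ => h (σ i) i
  exact analyticAt_const.mul h1

theorem le_order_sum_mul_const {ι : Type*} [Fintype ι] {z0 : ℂ} {n : ℕ} {g : ι → ℂ → ℂ}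
    (c : ι → ℂ) (hg : ∀ i, AnalyticAt ℂ (g i) z0)
    (hn : ∀ i, (n : ℕ∞) ≤ analyticOrderAt (g i) z0) :
    (n : ℕ∞) ≤ analyticOrderAt (fun z => ∑ i, g i z * c i) z0 := by
  have hfac : ∀ i, ∃ k, AnalyticAt ℂ k z0 ∧ ∀ᶠ z in 𝓝 z0, g i z = (z - z0) ^ n • k z :=
    fun i => (natCast_le_analyticOrderAt (hg i)).mp (hn i)
  choose k hka hkeq using hfac
  have han : AnalyticAt ℂ (fun z => ∑ i, g i z * c i) z0 :=
    Finset.analyticAt_fun_sum _ fun i _ => (hg i).mul analyticAt_const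
  rw [natCast_le_analyticOrderAt han]
  refine ⟨fun z => ∑ i, k i z * c i,
    Finset.analyticAt_fun_sum _ fun i _ => (hka i).mul analyticAt_const, ?_⟩
  have : ∀ᶠ z in 𝓝 z0, ∀ i, g i z = (z - z0) ^ n • k i z := Filter.eventually_all.mpr hkeq
  filter_upwards [this] with z hz
  simp only [hz, smul_eq_mul, Finset.mul_sum]
  apply Finset.sum_congr rfl
  intros
  ring

/-! ### Columns are eigen-germs -/

section Cols

variable {X : Type*} {e : ℕ} {ζ : ℂ} {π : Equiv.Perm X} {z0 : ℂ} {sig u : ℂ → ℂ}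
  {Φ : X → X → ℂ → ℂ}

theorem isEigenGerm_col_fixed (hΦ : ∀ a x, AnalyticAt ℂ (Φ a x) z0)
    (hsym : ∀ a x, ∀ᶠ z in 𝓝 z0, Φ a x (sig z) = u z * Φ a (π x) z) (a x : X)
    (hx : π x = x) : IsEigenGerm ζ sig u z0 0 (fun z => Φ a x z) := by
  refine ⟨hΦ a x, ?_⟩
  filter_upwards [hsym a x] with z hz
  rw [hz, hx]; simp

theorem isEigenGerm_col_free [Finite X] (he : e ≠ 0) (hζe : ζ ^ e = 1) (hπ : π ^ e = 1)
    (hΦ : ∀ a x, AnalyticAt ℂ (Φ a x) z0)
    (hsym : ∀ a x, ∀ᶠ z in 𝓝 z0, Φ a x (sig z) = u z * Φ a (π x) z) (a y : X) (l : ℕ) :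
    IsEigenGerm ζ sig u z0 l
      (fun z => ∑ b ∈ Finset.range e, Φ a ((π ^ b) y) z * (ζ⁻¹ ^ l) ^ b) := by
  refine ⟨Finset.analyticAt_fun_sum _ fun b _ => (hΦ a _).mul analyticAt_const, ?_⟩
  have hall : ∀ᶠ z in 𝓝 z0, ∀ x, Φ a x (sig z) = u z * Φ a (π x) z :=
    Filter.eventually_all.mpr (hsym a)
  have hζ0 : ζ ≠ 0 := by
    intro h0
    rw [h0, zero_pow he] at hζe; exact zero_ne_one hζe
  filter_upwards [hall] with z hz
  have hc : ζ ^ l * ζ⁻¹ ^ l = 1 := by
    rw [← mul_pow, mul_inv_cancel₀ hζ0, one_pow]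
  have hce : (ζ⁻¹ ^ l) ^ e = 1 := by
    rw [← pow_mul, mul_comm, pow_mul, inv_pow, hζe, inv_one, one_pow]
  have := sum_range_shift (fun n => ζ ^ l * u z * (Φ a ((π ^ n) y) z * (ζ⁻¹ ^ l) ^ n)) e (by
    simp only [hπ, hce, pow_zero])
  rw [Finset.mul_sum, ← this]
  apply Finset.sum_congr rfl
  intro b _
  rw [hz, pow_succ' π b, Equiv.Perm.mul_apply, pow_succ (ζ⁻¹ ^ l) b]
  linear_combination (-(u z * Φ a (π ((π ^ b) y)) z * (ζ⁻¹ ^ l) ^ b)) * hc

end Cols

end Fermat.Agent.S20_helper48
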