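import Mathlib
import Fermat.Agent.S20_helper48.DetOrderAux

/-!
# LOC-DET for a local symmetry of prime order (germ form)

`X` a finite set, `π` a permutation of `X` with `π ^ e = 1`, `e` prime; `sig` an analytic germ
fixing `z0` with multiplier a primitive `e`-th root of unity `ζ`; `u` analytic, `u z0 = ζ ^ s`;
`Φ a x` analytic germs with `Φ a x (sig z) = u z * Φ a (π x) z`.  Then
`det (Φ a x z)` vanishes at `z0` to order at least
`forcedOrd e s |X| f = (e (e-1)/2) (|X| - f)/e + (s % e) f`, `f = #Fix π`, and if the order is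
strictly larger, some nontrivial combination `∑ a, c a * Φ a x` vanishes to order `≥ e` for all `x`.
-/

set_option autoImplicit false

open Filter Topology Matrix

namespace Fermat.Agent.S20_helper48

section Orbit

variable {X : Type*} (π : Equiv.Perm X)

/-- Orbits of `π`. -/
abbrev OrbQ : Type _ := Quotient (Equiv.Perm.SameCycle.setoid π)

/-- Orbits whose chosen representative is not a fixed point. -/
abbrev FreeOrb : Type _ := {ω : OrbQ π // π ω.out ≠ ω.out}

variable {π}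

theorem sameCycle_exists_lt {e : ℕ} (he : e ≠ 0) (hπ : π ^ e = 1) {x y : X}
    (h : π.SameCycle x y) : ∃ b, b < e ∧ (π ^ b) x = y := by
  obtain ⟨i, hi⟩ := h
  have hpos : (0 : ℤ) < (e : ℤ) := by exact_mod_cast Nat.pos_of_ne_zero he
  have h1 : π ^ i = π ^ (i % (e : ℤ)) := zpow_eq_zpow_emod' i hπ
  have h2 : 0 ≤ i % (e : ℤ) := Int.emod_nonneg _ hpos.ne'
  have h3 : i % (e : ℤ) < e := Int.emod_lt_of_pos _ hpos
  obtain ⟨b, hb⟩ := Int.eq_ofNat_of_zero_le h2
  refine ⟨b, ?_, ?_⟩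
  · rw [hb] at h3; exact_mod_cast h3
  · rw [h1, hb, zpow_natCast] at hi; exact hi

theorem pow_apply_injOn {e : ℕ} (he : e.Prime) (hπ : π ^ e = 1) {y : X} (hy : π y ≠ y)
    {b b' : ℕ} (hb : b < e) (hb' : b' < e) (h : (π ^ b) y = (π ^ b') y) : b = b' := by
  have : Fact e.Prime := ⟨he⟩
  have hper : Function.IsPeriodicPt π e y := by
    show (π : X → X)^[e] y = y
    rw [Equiv.Perm.iterate_eq_pow, hπ]; rfl
  have hmin : Function.minimalPeriod π y = e := Function.minimalPeriod_eq_prime hper hy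
  have := (Function.iterate_eq_iterate_iff_of_lt_minimalPeriod (f := π) (x := y)
    (by rw [hmin]; exact hb) (by rw [hmin]; exact hb')).mp (by
      rw [Equiv.Perm.iterate_eq_pow, Equiv.Perm.iterate_eq_pow]; exact h)
  exact this

variable (π) in
/-- The map from the orbit-decomposition index type to `X`. -/
noncomputable def orbMap (e : ℕ) : {x : X // π x = x} ⊕ (Fin e × FreeOrb π) → X
  | Sum.inl x => x.1
  | Sum.inr (b, ω) => (π ^ (b : ℕ)) ω.1.out

theorem orbMap_injective {e : ℕ} (he : e.Prime) (hπ : π ^ e = 1) :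
    Function.Injective (orbMap π e) := by
  rintro (x | ⟨b, ω⟩) (x' | ⟨b', ω'⟩) h
  · simp only [orbMap] at h
    exact congrArg Sum.inl (Subtype.ext h)
  · exfalso
    simp only [orbMap] at h
    apply ω'.2
    have hx := x.2
    rw [h] at hx
    -- π (π^b' y) = π^b' y
    have : (π ^ (b' : ℕ)) (π ω'.1.out) = (π ^ (b' : ℕ)) ω'.1.out := by
      rw [← Equiv.Perm.mul_apply, ← pow_succ, pow_succ', Equiv.Perm.mul_apply]; exact hx
    exact (π ^ (b' : ℕ)).injective this
  · exfalso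
    simp only [orbMap] at h
    apply ω.2
    have hx := x'.2
    rw [← h] at hx
    have : (π ^ (b : ℕ)) (π ω.1.out) = (π ^ (b : ℕ)) ω.1.out := by
      rw [← Equiv.Perm.mul_apply, ← pow_succ, pow_succ', Equiv.Perm.mul_apply]; exact hx
    exact (π ^ (b : ℕ)).injective this
  · simp only [orbMap] at h
    have hω : ω = ω' := by
      apply Subtype.ext
      rw [← Quotient.out_eq ω.1, ← Quotient.out_eq ω'.1]
      apply Quotient.sound
      show π.SameCycle ω.1.out ω'.1.out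
      refine ⟨(b : ℤ) - (b' : ℤ), ?_⟩
      rw [sub_eq_neg_add, _root_.zpow_add, Equiv.Perm.mul_apply, zpow_natCast, h, _root_.zpow_neg, zpow_natCast]
      simp
    subst hω
    have hb : (b : ℕ) = (b' : ℕ) := pow_apply_injOn he hπ ω.2 b.2 b'.2 h
    rw [Fin.ext hb]

theorem orbMap_surjective {e : ℕ} (he : e.Prime) (hπ : π ^ e = 1) :
    Function.Surjective (orbMap π e) := by
  intro x
  by_cases hx : π x = x
  · exact ⟨Sum.inl ⟨x, hx⟩, rfl⟩
  · set ω : OrbQ π := Quotient.mk _ x with hω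
    have hsc : π.SameCycle ω.out x := Quotient.exact (Quotient.out_eq ω)
    obtain ⟨b, hb, hbx⟩ := sameCycle_exists_lt he.ne_zero hπ hsc
    have hfree : π ω.out ≠ ω.out := by
      intro hfix
      apply hx
      have h1 : ∀ n : ℕ, (π ^ n) ω.out = ω.out := by
        intro n
        induction n with
        | zero => simp
        | succ n ih => rw [pow_succ, Equiv.Perm.mul_apply, hfix, ih]
      rw [← hbx, h1, hfix]
    exact ⟨Sum.inr (⟨b, hb⟩, ⟨ω, hfree⟩), hbx⟩

/-- The orbit decomposition of `X` under a permutation of prime order `e`. -/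
noncomputable def orbEquiv {e : ℕ} (he : e.Prime) (hπ : π ^ e = 1) :
    {x : X // π x = x} ⊕ (Fin e × FreeOrb π) ≃ X :=
  Equiv.ofBijective (orbMap π e) ⟨orbMap_injective he hπ, orbMap_surjective he hπ⟩

theorem orbEquiv_inl {e : ℕ} (he : e.Prime) (hπ : π ^ e = 1) (x : {x : X // π x = x}) :
    orbEquiv he hπ (Sum.inl x) = x.1 := rfl

theorem orbEquiv_inr {e : ℕ} (he : e.Prime) (hπ : π ^ e = 1) (b : Fin e) (ω : FreeOrb π) :
    orbEquiv he hπ (Sum.inr (b, ω)) = (π ^ (b : ℕ)) ω.1.out := rfl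

end Orbit


/-- Core factorisation, for an abstract orbit decomposition
`ψ : F ⊕ (Fin e × R) ≃ X` (`F` = fixed points, `R` = representatives of the free orbits). -/
theorem det_core {X F R : Type*} [Fintype X] [DecidableEq X] [Fintype F] [DecidableEq F]
    [Fintype R] [DecidableEq R] {e : ℕ} (he : e ≠ 0) {ζ : ℂ} (hζ : IsPrimitiveRoot ζ e) (s : ℕ)
    (π : Equiv.Perm X) (hπ : π ^ e = 1)
    (ψ : F ⊕ (Fin e × R) ≃ X) (y : R → X)
    (hfix : ∀ x : F, π (ψ (Sum.inl x)) = ψ (Sum.inl x))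
    (hfree : ∀ (b : Fin e) (ω : R), ψ (Sum.inr (b, ω)) = (π ^ (b : ℕ)) (y ω))
    {z0 : ℂ} {sig u : ℂ → ℂ} (hsig : AnalyticAt ℂ sig z0) (hsig0 : sig z0 = z0)
    (hsig1 : deriv sig z0 = ζ) (hu : AnalyticAt ℂ u z0) (hu0 : u z0 = ζ ^ s)
    {Φ : X → X → ℂ → ℂ} (hΦ : ∀ a x, AnalyticAt ℂ (Φ a x) z0)
    (hsym : ∀ a x, ∀ᶠ z in 𝓝 z0, Φ a x (sig z) = u z * Φ a (π x) z) :
    ∃ h : ℂ → ℂ, AnalyticAt ℂ h z0 ∧
      (∀ᶠ z in 𝓝 z0, Matrix.det (Matrix.of fun a x => Φ a x z) =
        (z - z0) ^ (Fintype.card F * (s % e) + Fintype.card R * (e * (e - 1) / 2)) • h z) ∧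
      (h z0 = 0 → ∃ c : X → ℂ, c ≠ 0 ∧
        ∀ x, (e : ℕ∞) ≤ analyticOrderAt (fun z => ∑ a, c a * Φ a x z) z0) := by
  classical
  have hζe : ζ ^ e = 1 := hζ.pow_eq_one
  have hη : IsPrimitiveRoot ζ⁻¹ e := hζ.inv
  have hB : (bMat ζ⁻¹ e F R).det ≠ 0 := det_bMat_ne_zero F R hη
  -- labels
  let lab : F ⊕ (Fin e × R) → ℕ := Sum.elim (fun _ => 0) (fun p => (p.1 : ℕ))
  let r : F ⊕ (Fin e × R) → ℕ := fun i => (lab i + s) % e
  have hsum : ∑ i, r i = Fintype.card F * (s % e) + Fintype.card R * (e * (e - 1) / 2) := by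
    rw [Fintype.sum_sum_type, Fintype.sum_prod_type]
    simp only [r, lab, Sum.elim_inl, Sum.elim_inr, zero_add, Finset.sum_const, Finset.card_univ,
      smul_eq_mul]
    congr 1
    rw [← Finset.mul_sum, Fin.sum_univ_eq_sum_range (fun l => (l + s) % e) e, sum_range_add_mod]
  -- the matrices
  let A : ℂ → Matrix (F ⊕ (Fin e × R)) (F ⊕ (Fin e × R)) ℂ :=
    fun z => Matrix.of fun i' i => Φ (ψ i') (ψ i) z
  let Nf : (F ⊕ (Fin e × R)) → (F ⊕ (Fin e × R)) → ℂ → ℂ :=
    fun i' i z => (A z * bMat ζ⁻¹ e F R) i' i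
  have hN : ∀ i' i, IsEigenGerm ζ sig u z0 (lab i) (Nf i' i) := by
    intro i' i
    rcases i with x | ⟨l, ω⟩
    · have h1 : Nf i' (Sum.inl x) = fun z => Φ (ψ i') (ψ (Sum.inl x)) z := by
        funext z
        simp only [Nf]
        rw [mul_bMat_inl]
        rfl
      rw [h1]
      exact isEigenGerm_col_fixed hΦ hsym _ _ (hfix x)
    · have h1 : Nf i' (Sum.inr (l, ω)) =
          fun z => ∑ b ∈ Finset.range e, Φ (ψ i') ((π ^ b) (y ω)) z * (ζ⁻¹ ^ (l : ℕ)) ^ b := by
        funext z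
        simp only [Nf]
        rw [mul_bMat_inr,
          ← Fin.sum_univ_eq_sum_range (fun b => Φ (ψ i') ((π ^ b) (y ω)) z * (ζ⁻¹ ^ (l : ℕ)) ^ b) e]
        apply Finset.sum_congr rfl
        intro b _
        simp only [A, Matrix.of_apply, hfree]
      rw [h1]
      exact isEigenGerm_col_free he hζe hπ hΦ hsym _ _ _
  have hord : ∀ i' i, ((r i : ℕ) : ℕ∞) ≤ analyticOrderAt (Nf i' i) z0 := fun i' i =>
    (hN i' i).le_order he hζ hsig hsig0 hsig1 hu hu0
  have hfac : ∀ i' i, ∃ g, AnalyticAt ℂ g z0 ∧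
      ∀ᶠ z in 𝓝 z0, Nf i' i z = (z - z0) ^ (r i) • g z := fun i' i =>
    (natCast_le_analyticOrderAt (hN i' i).1).mp (hord i' i)
  choose Nt hNta hNteq using hfac
  have hev : ∀ᶠ z in 𝓝 z0, ∀ i' i, Nf i' i z = (z - z0) ^ (r i) • Nt i' i z := by
    rw [Filter.eventually_all]
    intro i'
    rw [Filter.eventually_all]
    intro i
    exact hNteq i' i
  have hdetA : ∀ z, (A z).det = Matrix.det (Matrix.of fun a x => Φ a x z) := fun z =>
    Matrix.det_submatrix_equiv_self ψ (Matrix.of fun a x => Φ a x z)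
  refine ⟨fun z => Matrix.det (Matrix.of fun i' i => Nt i' i z) * (bMat ζ⁻¹ e F R).det⁻¹,
    (analyticAt_det_of hNta).mul analyticAt_const, ?_, ?_⟩
  · filter_upwards [hev] with z hz
    have h1 : A z * bMat ζ⁻¹ e F R = Matrix.of fun i' i => (z - z0) ^ (r i) * Nt i' i z := by
      ext i' i
      exact hz i' i
    have h2 : (A z).det * (bMat ζ⁻¹ e F R).det =
        (z - z0) ^ (Fintype.card F * (s % e) + Fintype.card R * (e * (e - 1) / 2)) *
          Matrix.det (Matrix.of fun i' i => Nt i' i z) := by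
      have h3 := Matrix.det_mul_row (fun i => (z - z0) ^ r i) (Matrix.of fun i' i => Nt i' i z)
      simp only [Matrix.of_apply] at h3
      rw [← Matrix.det_mul, h1, h3, Finset.prod_pow_eq_pow_sum, hsum]
    rw [← hdetA, smul_eq_mul, ← mul_assoc, ← h2, mul_assoc, mul_inv_cancel₀ hB, mul_one]
  · intro h0
    have hdet0 : Matrix.det (Matrix.of fun i' i => Nt i' i z0) = 0 := by
      rcases mul_eq_zero.mp h0 with h | h
      · exact h
      · exact absurd (inv_eq_zero.mp h) hB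
    obtain ⟨c', hc'0, hc'⟩ := Matrix.exists_vecMul_eq_zero_iff.mpr hdet0
    have hG : ∀ i, IsEigenGerm ζ sig u z0 (lab i) (fun z => ∑ i', c' i' * Nf i' i z) := fun i =>
      IsEigenGerm.sum Finset.univ (fun i' _ => (hN i' i).const_mul (c' i'))
    have hGord : ∀ i, ((e : ℕ) : ℕ∞) ≤ analyticOrderAt (fun z => ∑ i', c' i' * Nf i' i z) z0 := by
      intro i
      apply (hG i).e_le_order he hζ hsig hsig0 hsig1 hu hu0
      have hk : AnalyticAt ℂ (fun z => ∑ i', c' i' * Nt i' i z) z0 :=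
        Finset.analyticAt_fun_sum _ fun i' _ => analyticAt_const.mul (hNta i' i)
      have hk0 : (fun z => ∑ i', c' i' * Nt i' i z) z0 = 0 := by
        have := congrFun hc' i
        simpa [Matrix.vecMul, dotProduct] using this
      have hk1 : ((1 : ℕ) : ℕ∞) ≤ analyticOrderAt (fun z => ∑ i', c' i' * Nt i' i z) z0 := by
        have hne : analyticOrderAt (fun z => ∑ i', c' i' * Nt i' i z) z0 ≠ 0 := by
          rw [hk.analyticOrderAt_ne_zero]; exact hk0
        exact Order.one_le_iff_ne_zero.mpr hne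
      obtain ⟨k', hk'a, hk'eq⟩ := (natCast_le_analyticOrderAt hk).mp hk1
      apply (natCast_le_analyticOrderAt (hG i).1).mpr
      refine ⟨k', hk'a, ?_⟩
      filter_upwards [hev, hk'eq] with z hz hz'
      have : ∑ i', c' i' * Nf i' i z = (z - z0) ^ (r i) * ∑ i', c' i' * Nt i' i z := by
        rw [Finset.mul_sum]
        apply Finset.sum_congr rfl
        intro i' _
        rw [hz i' i, smul_eq_mul]
        ring
      rw [this, hz', smul_eq_mul, smul_eq_mul, pow_succ]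
      show (z - z0) ^ ((lab i + s) % e) * ((z - z0) ^ 1 * k' z) = _
      ring
    refine ⟨fun a => c' (ψ.symm a), ?_, ?_⟩
    · intro hc
      apply hc'0
      funext i'
      have := congrFun hc (ψ i')
      simpa using this
    · intro x
      have hrec : (fun z => ∑ a, c' (ψ.symm a) * Φ a x z) =
          fun z => ∑ i, (∑ i', c' i' * Nf i' i z) * (bMat ζ⁻¹ e F R)⁻¹ i (ψ.symm x) := by
        funext z
        have hA : A z = A z * bMat ζ⁻¹ e F R * (bMat ζ⁻¹ e F R)⁻¹ :=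
          (Matrix.mul_nonsing_inv_cancel_right _ _ (isUnit_iff_ne_zero.mpr hB)).symm
        have h1 : ∑ a, c' (ψ.symm a) * Φ a x z = ∑ i', c' i' * A z i' (ψ.symm x) := by
          rw [← Equiv.sum_comp ψ]
          apply Finset.sum_congr rfl
          intro i' _
          simp [A]
        rw [h1]
        have h2 : ∀ i', A z i' (ψ.symm x) =
            ∑ i, Nf i' i z * (bMat ζ⁻¹ e F R)⁻¹ i (ψ.symm x) := by
          intro i'
          conv_lhs => rw [hA]
          rw [Matrix.mul_apply]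
        simp only [h2, Finset.mul_sum, Finset.sum_mul]
        rw [Finset.sum_comm]
        apply Finset.sum_congr rfl
        intro i _
        apply Finset.sum_congr rfl
        intro i' _
        ring
      rw [hrec]
      exact le_order_sum_mul_const _ (fun i => (hG i).1) hGord


/-! ### Final statements -/

/-- The forced order of vanishing of the determinant. -/
def forcedOrd (e s μ f : ℕ) : ℕ := (e * (e - 1) / 2) * ((μ - f) / e) + (s % e) * f

theorem forcedOrd_two (s μ f : ℕ) : forcedOrd 2 s μ f = (μ - f) / 2 + (s % 2) * f := by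
  simp [forcedOrd]

theorem forcedOrd_three (s μ f : ℕ) (h : 3 ∣ μ - f) :
    forcedOrd 3 s μ f = (μ - f) + (s % 3) * f := by
  obtain ⟨k, hk⟩ := h
  simp [forcedOrd, hk]

section Final

variable {X : Type*} [Fintype X] [DecidableEq X] {e : ℕ} {ζ : ℂ}

/-- Common core of (L1) and (L2) for prime `e`. -/
theorem germ_core (he : e.Prime) (hζ : IsPrimitiveRoot ζ e) (s : ℕ)
    (π : Equiv.Perm X) (hπ : π ^ e = 1) {z0 : ℂ} {sig u : ℂ → ℂ} (hsig : AnalyticAt ℂ sig z0)
    (hsig0 : sig z0 = z0) (hsig1 : deriv sig z0 = ζ) (hu : AnalyticAt ℂ u z0)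
    (hu0 : u z0 = ζ ^ s) {Φ : X → X → ℂ → ℂ} (hΦ : ∀ a x, AnalyticAt ℂ (Φ a x) z0)
    (hsym : ∀ a x, ∀ᶠ z in 𝓝 z0, Φ a x (sig z) = u z * Φ a (π x) z) :
    ∃ h : ℂ → ℂ, AnalyticAt ℂ h z0 ∧
      (∀ᶠ z in 𝓝 z0, Matrix.det (Matrix.of fun a x => Φ a x z) =
        (z - z0) ^ (forcedOrd e s (Fintype.card X) (Nat.card {x : X // π x = x})) • h z) ∧
      (h z0 = 0 → ∃ c : X → ℂ, c ≠ 0 ∧
        ∀ x, (e : ℕ∞) ≤ analyticOrderAt (fun z => ∑ a, c a * Φ a x z) z0) := by
  classical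
  let _ : Fintype (FreeOrb π) := Fintype.ofFinite _
  have hcore := det_core (F := {x : X // π x = x}) (R := FreeOrb π) he.ne_zero hζ s π hπ
    (orbEquiv he hπ) (fun ω => ω.1.out) (fun x => by rw [orbEquiv_inl]; exact x.2)
    (fun b ω => orbEquiv_inr he hπ b ω) hsig hsig0 hsig1 hu hu0 hΦ hsym
  have hcard : Fintype.card X =
      Fintype.card {x : X // π x = x} + e * Fintype.card (FreeOrb π) := by
    rw [← Fintype.card_congr (orbEquiv he hπ), Fintype.card_sum, Fintype.card_prod,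
      Fintype.card_fin]
  have hd : forcedOrd e s (Fintype.card X) (Nat.card {x : X // π x = x}) =
      Fintype.card {x : X // π x = x} * (s % e) +
        Fintype.card (FreeOrb π) * (e * (e - 1) / 2) := by
    rw [forcedOrd, Nat.card_eq_fintype_card, hcard, Nat.add_sub_cancel_left,
      Nat.mul_div_cancel_left _ he.pos]
    ring
  rw [hd]
  exact hcore

/-- **(L1)** lower bound for the order of the determinant. -/
theorem germ_le_analyticOrderAt_det (he : e.Prime) (hζ : IsPrimitiveRoot ζ e) (s : ℕ)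
    (π : Equiv.Perm X) (hπ : π ^ e = 1) {z0 : ℂ} {sig u : ℂ → ℂ} (hsig : AnalyticAt ℂ sig z0)
    (hsig0 : sig z0 = z0) (hsig1 : deriv sig z0 = ζ) (hu : AnalyticAt ℂ u z0)
    (hu0 : u z0 = ζ ^ s) {Φ : X → X → ℂ → ℂ} (hΦ : ∀ a x, AnalyticAt ℂ (Φ a x) z0)
    (hsym : ∀ a x, ∀ᶠ z in 𝓝 z0, Φ a x (sig z) = u z * Φ a (π x) z) :
    ((forcedOrd e s (Fintype.card X) (Nat.card {x : X // π x = x}) : ℕ) : ℕ∞) ≤
      analyticOrderAt (fun z => Matrix.det (Matrix.of fun a x => Φ a x z)) z0 := by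
  obtain ⟨h, hh, heq, -⟩ := germ_core he hζ s π hπ hsig hsig0 hsig1 hu hu0 hΦ hsym
  exact (natCast_le_analyticOrderAt (analyticAt_det_of hΦ)).mpr ⟨h, hh, heq⟩

/-- **(L2)** saturation: if the determinant vanishes to higher order than forced, some
nontrivial combination of the rows vanishes to order `≥ e` in every column. -/
theorem germ_exists_vanishing_combination (he : e.Prime) (hζ : IsPrimitiveRoot ζ e) (s : ℕ)
    (π : Equiv.Perm X) (hπ : π ^ e = 1) {z0 : ℂ} {sig u : ℂ → ℂ} (hsig : AnalyticAt ℂ sig z0)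
    (hsig0 : sig z0 = z0) (hsig1 : deriv sig z0 = ζ) (hu : AnalyticAt ℂ u z0)
    (hu0 : u z0 = ζ ^ s) {Φ : X → X → ℂ → ℂ} (hΦ : ∀ a x, AnalyticAt ℂ (Φ a x) z0)
    (hsym : ∀ a x, ∀ᶠ z in 𝓝 z0, Φ a x (sig z) = u z * Φ a (π x) z)
    (hlt : ((forcedOrd e s (Fintype.card X) (Nat.card {x : X // π x = x}) : ℕ) : ℕ∞) <
      analyticOrderAt (fun z => Matrix.det (Matrix.of fun a x => Φ a x z)) z0) :
    ∃ c : X → ℂ, c ≠ 0 ∧
      ∀ x, (e : ℕ∞) ≤ analyticOrderAt (fun z => ∑ a, c a * Φ a x z) z0 := by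
  obtain ⟨h, hh, heq, hsat⟩ := germ_core he hζ s π hπ hsig hsig0 hsig1 hu hu0 hΦ hsym
  apply hsat
  by_contra h0
  have : analyticOrderAt (fun z => Matrix.det (Matrix.of fun a x => Φ a x z)) z0 =
      (forcedOrd e s (Fintype.card X) (Nat.card {x : X // π x = x}) : ℕ) :=
    ((analyticAt_det_of hΦ).analyticOrderAt_eq_natCast).mpr ⟨h, hh, h0, heq⟩
  rw [this] at hlt
  exact lt_irrefl _ hlt

/-- Trivial stabiliser: if the determinant vanishes at `z0`, some nontrivial combination of the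
rows vanishes at `z0` in every column. -/
theorem generic_exists_vanishing_combination {z0 : ℂ}
    {Φ : X → X → ℂ → ℂ} (hΦ : ∀ a x, AnalyticAt ℂ (Φ a x) z0)
    (hlt : (0 : ℕ∞) < analyticOrderAt (fun z => Matrix.det (Matrix.of fun a x => Φ a x z)) z0) :
    ∃ c : X → ℂ, c ≠ 0 ∧
      ∀ x, (1 : ℕ∞) ≤ analyticOrderAt (fun z => ∑ a, c a * Φ a x z) z0 := by
  have hdet0 : Matrix.det (Matrix.of fun a x => Φ a x z0) = 0 := by
    have hne : analyticOrderAt (fun z => Matrix.det (Matrix.of fun a x => Φ a x z)) z0 ≠ 0 :=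
      hlt.ne'
    rwa [(analyticAt_det_of hΦ).analyticOrderAt_ne_zero] at hne
  obtain ⟨c, hc0, hc⟩ := Matrix.exists_vecMul_eq_zero_iff.mpr hdet0
  refine ⟨c, hc0, fun x => ?_⟩
  have hk : AnalyticAt ℂ (fun z => ∑ a, c a * Φ a x z) z0 :=
    Finset.analyticAt_fun_sum _ fun a _ => analyticAt_const.mul (hΦ a x)
  have hk0 : (fun z => ∑ a, c a * Φ a x z) z0 = 0 := by
    have := congrFun hc x
    simpa [Matrix.vecMul, dotProduct] using this
  have hne : analyticOrderAt (fun z => ∑ a, c a * Φ a x z) z0 ≠ 0 := by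
    rw [hk.analyticOrderAt_ne_zero]; exact hk0
  exact Order.one_le_iff_ne_zero.mpr hne

end Final

end Fermat.Agent.S20_helper48
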