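import Fermat.Agent.S20.LocalGlue
import Fermat.Agent.S20_helper48.DetOrderPrime

/-!
# Discharging the LOC-DET hypotheses of `S20/LocalGlue.lean`

`LocalGlue.LocDetL1` and `LocalGlue.LocDetL2` are the statements (prime `e`, germ form) of
`germ_le_analyticOrderAt_det` and `germ_exists_vanishing_combination`.
-/

set_option autoImplicit false

namespace Fermat.Agent.S20_helper48

theorem locDetL1 : Fermat.Agent.S20.LocalGlue.LocDetL1 := by
  intro X _ _ e he ζ hζ s π hπ z0 sig u hsig hsig0 hsig1 hu hu0 Φ hΦ hsym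
  exact germ_le_analyticOrderAt_det he hζ s π hπ hsig hsig0 hsig1 hu hu0 hΦ hsym

theorem locDetL2 : Fermat.Agent.S20.LocalGlue.LocDetL2 := by
  intro X _ _ e he ζ hζ s π hπ z0 sig u hsig hsig0 hsig1 hu hu0 Φ hΦ hsym hlt
  exact germ_exists_vanishing_combination he hζ s π hπ hsig hsig0 hsig1 hu hu0 hΦ hsym hlt

end Fermat.Agent.S20_helper48
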